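import Mathlib.Algebra.Order.Archimedean.Real.Basic
import Mathlib.Data.Set.Card
import Mathlib.Algebra.Order.Floor.Ring
import Mathlib.Tactic

/-!
# Gaps between the multiples of a number modulo one

With `a` and `b` the least nonzero values of `fract (i α)` and `fract (-i α)`, `0 < i < N`, every
gap between neighbouring points `fract (k α)`, `k < N`, has length `a`, `b` or `a + b`.
-/

set_option autoImplicit false

noncomputable section

namespace FA.ThreeGaps

/-- An arc of length `g ≤ 1` from one point to the next, going forward. -/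
def IsGap (α : ℝ) (N : ℕ) (g : ℝ) : Prop :=
  ∃ k : ℕ, k < N ∧ 0 < g ∧ g ≤ 1 ∧
    (∃ j : ℕ, j < N ∧ Int.fract ((j : ℝ) * α) = Int.fract ((k : ℝ) * α + g)) ∧
    ∀ j : ℕ, j < N → ∀ t : ℝ, 0 < t → t < g →
      Int.fract ((j : ℝ) * α) ≠ Int.fract ((k : ℝ) * α + t)

/-- Position `i α` modulo one. -/
def pos (α : ℝ) (i : ℤ) : ℝ := Int.fract ((i : ℝ) * α)

theorem pos_sub (α : ℝ) (i j : ℤ) : pos α (i - j) = Int.fract (pos α i - pos α j) := by
  refine Int.fract_eq_fract.2 ⟨⌊(i : ℝ) * α⌋ - ⌊(j : ℝ) * α⌋, ?_⟩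
  rw [pos, pos, Int.fract, Int.fract]
  push_cast
  ring

theorem pos_sub_of_le (α : ℝ) {i j : ℤ} (h : pos α j ≤ pos α i) :
    pos α (i - j) = pos α i - pos α j := by
  rw [pos_sub]
  exact Int.fract_eq_self.2 ⟨sub_nonneg.2 h,
    (sub_le_self _ (Int.fract_nonneg _)).trans_lt (Int.fract_lt_one _)⟩

theorem gap_spec {α g : ℝ} {N : ℕ} (h : IsGap α N g) : ∃ k : ℕ, k < N ∧ 0 < g ∧ g ≤ 1 ∧
    (g = 1 ∨ ∃ i : ℤ, -(k : ℤ) ≤ i ∧ i < (N : ℤ) - k ∧ g = pos α i) ∧
    ∀ i : ℤ, -(k : ℤ) ≤ i → i < (N : ℤ) - k → pos α i ≠ 0 → g ≤ pos α i := by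
  obtain ⟨k, hk, hg, hg1, ⟨j, hj, hend⟩, hno⟩ := h
  refine ⟨k, hk, hg, hg1, ?_, fun i hi1 hi2 hne => ?_⟩
  · rcases hg1.eq_or_lt with rfl | hlt
    · exact Or.inl rfl
    refine Or.inr ⟨(j : ℤ) - k, by omega, by omega, ?_⟩
    obtain ⟨z, hz⟩ := Int.fract_eq_fract.1 hend
    rw [pos, ← Int.fract_eq_self.2 ⟨hg.le, hlt⟩]
    refine Int.fract_eq_fract.2 ⟨-z, ?_⟩
    push_cast
    linarith
  · by_contra! hlt
    obtain ⟨j, hj⟩ : ∃ j : ℕ, (j : ℤ) = k + i := ⟨(k + i).toNat, by omega⟩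
    refine hno j (by omega) (pos α i) ((Int.fract_nonneg _).lt_of_ne (Ne.symm hne)) hlt ?_
    have hj' : (j : ℝ) = k + i := by exact_mod_cast hj
    refine Int.fract_eq_fract.2 ⟨⌊(i : ℝ) * α⌋, ?_⟩
    rw [pos, Int.fract, hj']
    ring

/-- The conditions on the least forward and backward returns `a`, `b`, attained at `p`, `q`. -/
structure Returns (α : ℝ) (N : ℕ) (a b : ℝ) (p q : ℕ) : Prop where
  p_pos : 0 < p
  p_lt : p < N
  q_pos : 0 < q
  q_lt : q < N
  a_eq : pos α p = a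
  b_eq : pos α (-(q : ℤ)) = b
  a_pos : 0 < a
  b_pos : 0 < b
  a_min : ∀ i : ℤ, 0 < i → i < N → pos α i ≠ 0 → a ≤ pos α i
  b_min : ∀ i : ℤ, -(N : ℤ) < i → i < 0 → pos α i ≠ 0 → b ≤ pos α i

variable {α a b : ℝ} {N p q : ℕ}

theorem Returns.forward (R : Returns α N a b p q) {i : ℤ} (h1 : 0 < i) (h2 : i < p)
    (hne : pos α i ≠ 0) : pos α i = a ∨ a + b ≤ pos α i := by
  have hp : p < N := R.p_lt
  have ha := R.a_min i h1 (by omega) hne
  refine or_iff_not_imp_left.2 fun h => ?_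
  have e := pos_sub_of_le α (i := i) (j := p) (by rw [R.a_eq]; exact ha)
  rw [R.a_eq] at e
  have := R.b_min (i - p) (by omega) (by omega) (by rw [e]; exact sub_ne_zero.2 h)
  linarith

theorem Returns.backward (R : Returns α N a b p q) {i : ℤ} (h1 : i < 0) (h2 : -(q : ℤ) < i)
    (hne : pos α i ≠ 0) : pos α i = b ∨ a + b ≤ pos α i := by
  have hq : q < N := R.q_lt
  have hb := R.b_min i (by omega) h1 hne
  refine or_iff_not_imp_left.2 fun h => ?_
  have e := pos_sub_of_le α (i := i) (j := -(q : ℤ)) (by rw [R.b_eq]; exact hb)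
  rw [R.b_eq] at e
  have := R.a_min (i - -(q : ℤ)) (by omega) (by omega) (by rw [e]; exact sub_ne_zero.2 h)
  linarith

theorem Returns.gap_cases (R : Returns α N a b p q) {g : ℝ} (hg : IsGap α N g) :
    g = a ∨ g = b ∨ g = a + b := by
  obtain ⟨k, hk, hg0, hg1, hval, hmin⟩ := gap_spec hg
  have hp := R.p_lt
  have hq := R.q_lt
  have hpp := R.p_pos
  have hqq := R.q_pos
  have h_a : k + p < N → g ≤ a := fun h => by
    have := hmin p (by omega) (by omega) (by rw [R.a_eq]; exact R.a_pos.ne')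
    rwa [R.a_eq] at this
  have h_b : q ≤ k → g ≤ b := fun h => by
    have := hmin (-(q : ℤ)) (by omega) (by omega) (by rw [R.b_eq]; exact R.b_pos.ne')
    rwa [R.b_eq] at this
  have hab : N ≤ k + p → k < q → g ≤ a + b := fun h1 h2 => by
    rcases le_or_gt 1 (a + b) with h | h
    · linarith
    have e : pos α ((p : ℤ) - q) = a + b := by
      refine Int.fract_eq_iff.2 ⟨by linarith [R.a_pos, R.b_pos], h,
        ⌊((p : ℤ) : ℝ) * α⌋ + ⌊((-(q : ℤ) : ℤ) : ℝ) * α⌋, ?_⟩
      rw [← R.a_eq, ← R.b_eq, pos, pos, Int.fract, Int.fract]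
      push_cast
      ring
    have := hmin ((p : ℤ) - q) (by omega) (by omega) (by rw [e]; linarith [R.a_pos, R.b_pos])
    rwa [e] at this
  have ha1 : a < 1 := R.a_eq ▸ Int.fract_lt_one _
  have hb1 : b < 1 := R.b_eq ▸ Int.fract_lt_one _
  have small : ∀ i : ℤ, -(k : ℤ) ≤ i → i < (N : ℤ) - k → g = pos α i →
      g = a ∨ g = b ∨ a + b ≤ g ∨ (k + p < N ∧ a ≤ g) ∨ (q ≤ k ∧ b ≤ g) := by
    intro i h1 h2 he
    have hne : pos α i ≠ 0 := he ▸ hg0.ne'
    rcases lt_trichotomy i 0 with hi | hi | hi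
    · rcases lt_or_ge k q with hkq | hkq
      · rcases R.backward hi (by omega) hne with h | h
        · exact Or.inr (Or.inl (he.trans h))
        · exact Or.inr (Or.inr (Or.inl (he ▸ h)))
      · exact Or.inr (Or.inr (Or.inr (Or.inr ⟨hkq, he ▸ R.b_min i (by omega) hi hne⟩)))
    · exact absurd (by simp [pos, hi]) hne
    · rcases lt_or_ge (k + p) N with hkp | hkp
      · exact Or.inr (Or.inr (Or.inr (Or.inl ⟨hkp, he ▸ R.a_min i hi (by omega) hne⟩)))
      · rcases R.forward hi (by omega) hne with h | h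
        · exact Or.inl (he.trans h)
        · exact Or.inr (Or.inr (Or.inl (he ▸ h)))
  have key : g = a ∨ g = b ∨ a + b ≤ g := by
    rcases hval with rfl | ⟨i, h1, h2, he⟩
    · rcases lt_or_ge (k + p) N with h | h
      · linarith [h_a h]
      rcases lt_or_ge k q with h' | h'
      · rcases le_or_gt (a + b) 1 with h'' | h''
        · exact Or.inr (Or.inr h'')
        · exfalso
          have e : pos α ((p : ℤ) - q) = a + b - 1 := by
            refine Int.fract_eq_iff.2 ⟨by linarith, by linarith,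
              ⌊((p : ℤ) : ℝ) * α⌋ + ⌊((-(q : ℤ) : ℤ) : ℝ) * α⌋ + 1, ?_⟩
            rw [← R.a_eq, ← R.b_eq, pos, pos, Int.fract, Int.fract]
            push_cast
            ring
          have := hmin ((p : ℤ) - q) (by omega) (by omega) (by rw [e]; linarith)
          linarith
      · linarith [h_b h']
    rcases small i h1 h2 he with h | h | h | ⟨h, h'⟩ | ⟨h, h'⟩
    · exact Or.inl h
    · exact Or.inr (Or.inl h)
    · exact Or.inr (Or.inr h)
    · exact Or.inl (le_antisymm (h_a h) h')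
    · exact Or.inr (Or.inl (le_antisymm (h_b h) h'))
  rcases key with h | h | h
  · exact Or.inl h
  · exact Or.inr (Or.inl h)
  · refine Or.inr (Or.inr (le_antisymm ?_ h))
    rcases lt_or_ge (k + p) N with h1 | h1
    · linarith [h_a h1, R.b_pos]
    rcases lt_or_ge k q with h2 | h2
    · exact hab h1 h2
    · linarith [h_b h2, R.a_pos]

theorem Returns.isGap_a (R : Returns α N a b p q) : IsGap α N a := by
  refine ⟨0, by have := R.p_lt; omega, R.a_pos, (R.a_eq ▸ Int.fract_lt_one _ : a < 1).le,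
    ⟨p, R.p_lt, ?_⟩, fun j hj t ht hta he => ?_⟩
  · rw [← R.a_eq, pos, Nat.cast_zero, zero_mul, zero_add, Int.fract_fract, Int.cast_natCast]
  · have ht1 : t < 1 := hta.trans (R.a_eq ▸ Int.fract_lt_one _)
    rw [Nat.cast_zero, zero_mul, zero_add, Int.fract_eq_self.2 ⟨ht.le, ht1⟩] at he
    have hp : pos α j = t := by rw [pos, Int.cast_natCast, he]
    rcases Nat.eq_zero_or_pos j with rfl | hj0
    · simp [pos] at hp
      linarith
    · have := R.a_min j (by omega) (by omega) (by rw [hp]; exact ht.ne')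
      linarith

theorem Returns.isGap_b (R : Returns α N a b p q) : IsGap α N b := by
  have hq := R.q_lt
  have hb1 : b < 1 := R.b_eq ▸ Int.fract_lt_one _
  obtain ⟨M, hM⟩ : ∃ M, N = M + 1 := ⟨N - 1, by omega⟩
  subst hM
  refine ⟨M, by omega, R.b_pos, hb1.le, ⟨M - q, by omega, ?_⟩, fun j hj t ht htb he => ?_⟩
  · rw [← R.b_eq, pos, Nat.cast_sub (by omega)]
    refine Int.fract_eq_fract.2 ⟨⌊((-(q : ℤ) : ℤ) : ℝ) * α⌋, ?_⟩
    rw [Int.fract]
    push_cast
    ring
  · obtain ⟨z, hz⟩ := Int.fract_eq_fract.1 he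
    have hp : pos α ((j : ℤ) - M) = t := by
      refine Int.fract_eq_iff.2 ⟨ht.le, htb.trans hb1, z, ?_⟩
      push_cast
      linarith
    rcases Nat.lt_or_ge j M with hj0 | hj0
    · have := R.b_min ((j : ℤ) - M) (by omega) (by omega) (by rw [hp]; exact ht.ne')
      linarith
    · obtain rfl : j = M := by omega
      simp [pos] at hp
      linarith

/-- **The three-gap theorem**, with the two fundamental lengths. -/
theorem exists_lengths (α : ℝ) {N : ℕ} (hN : 0 < N) : ∃ a b : ℝ, IsGap α N a ∧ IsGap α N b ∧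
    ∀ g, IsGap α N g → g = a ∨ g = b ∨ g = a + b := by
  classical
  let S := (Finset.Ioo (0 : ℤ) N).filter fun i => pos α i ≠ 0
  let T := (Finset.Ioo (-(N : ℤ)) 0).filter fun i => pos α i ≠ 0
  by_cases hS : S.Nonempty
  · obtain ⟨i, hi⟩ := hS
    have hT : T.Nonempty := by
      simp only [S, Finset.mem_filter, Finset.mem_Ioo] at hi
      refine ⟨-i, Finset.mem_filter.2 ⟨Finset.mem_Ioo.2 ⟨by omega, by omega⟩, ?_⟩⟩
      rw [pos, Int.cast_neg, neg_mul, Int.fract_neg hi.2]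
      linarith [Int.fract_lt_one ((i : ℝ) * α)]
    obtain ⟨P, hP, hPmin⟩ := S.exists_min_image (pos α) ⟨i, hi⟩
    obtain ⟨Q, hQ, hQmin⟩ := T.exists_min_image (pos α) hT
    simp only [S, T, Finset.mem_filter, Finset.mem_Ioo] at hP hQ hPmin hQmin
    have R : Returns α N (pos α P) (pos α Q) P.toNat (-Q).toNat :=
      { p_pos := by omega
        p_lt := by omega
        q_pos := by omega
        q_lt := by omega
        a_eq := by rw [Int.toNat_of_nonneg (by omega)]
        b_eq := by rw [Int.toNat_of_nonneg (by omega), neg_neg]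
        a_pos := (Int.fract_nonneg _).lt_of_ne (Ne.symm hP.2)
        b_pos := (Int.fract_nonneg _).lt_of_ne (Ne.symm hQ.2)
        a_min := fun i h1 h2 h3 => hPmin i ⟨⟨h1, h2⟩, h3⟩
        b_min := fun i h1 h2 h3 => hQmin i ⟨⟨h1, h2⟩, h3⟩ }
    exact ⟨_, _, R.isGap_a, R.isGap_b, fun g hg => R.gap_cases hg⟩
  -- one point only
  · have hz : ∀ i : ℤ, -(N : ℤ) < i → i < N → pos α i = 0 := fun i h1 h2 => by
      have hS' : ∀ i : ℤ, 0 < i → i < N → pos α i = 0 := fun i h1 h2 => by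
        by_contra h
        exact hS ⟨i, Finset.mem_filter.2 ⟨Finset.mem_Ioo.2 ⟨h1, h2⟩, h⟩⟩
      rcases lt_trichotomy i 0 with h | rfl | h
      · have := hS' (-i) (by omega) (by omega)
        rw [pos, Int.fract_eq_iff] at this ⊢
        obtain ⟨-, -, z, hz⟩ := this
        refine ⟨le_rfl, one_pos, -z, ?_⟩
        push_cast at hz ⊢
        linarith
      · simp [pos]
      · exact hS' i h h2
    have one : IsGap α N 1 := by
      refine ⟨0, hN, one_pos, le_rfl, ⟨0, hN, by simp⟩, fun j hj t ht ht1 he => ?_⟩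
      have := hz j (by omega) (by omega)
      rw [pos, Int.cast_natCast] at this
      rw [this, Nat.cast_zero, zero_mul, zero_add, Int.fract_eq_self.2 ⟨ht.le, ht1⟩] at he
      linarith
    refine ⟨1, 1, one, one, fun g hg => Or.inl ?_⟩
    obtain ⟨k, hk, hg0, hg1, hval, -⟩ := gap_spec hg
    rcases hval with h | ⟨i, h1, h2, he⟩
    · exact h
    · rw [hz i (by omega) (by omega)] at he
      linarith

theorem exists_gap (α : ℝ) {N k : ℕ} (hk : k < N) :
    ∃ g, 0 < g ∧ g ≤ 1 ∧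
      (∃ j : ℕ, j < N ∧ Int.fract ((j : ℝ) * α) = Int.fract ((k : ℝ) * α + g)) ∧
      ∀ j : ℕ, j < N → ∀ t : ℝ, 0 < t → t < g →
        Int.fract ((j : ℝ) * α) ≠ Int.fract ((k : ℝ) * α + t) := by
  classical
  let D := (Finset.range N).filter fun j : ℕ => pos α ((j : ℤ) - k) ≠ 0
  have hD : ∀ j, j < N → ∀ t : ℝ, 0 < t → t < 1 →
      Int.fract ((j : ℝ) * α) = Int.fract ((k : ℝ) * α + t) → j ∈ D ∧ pos α ((j : ℤ) - k) = t := by
    intro j hj t ht ht1 he
    obtain ⟨z, hz⟩ := Int.fract_eq_fract.1 he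
    have hp : pos α ((j : ℤ) - k) = t := by
      refine Int.fract_eq_iff.2 ⟨ht.le, ht1, z, ?_⟩
      push_cast
      linarith
    exact ⟨Finset.mem_filter.2 ⟨Finset.mem_range.2 hj, by rw [hp]; exact ht.ne'⟩, hp⟩
  by_cases hne : D.Nonempty
  · obtain ⟨J, hJ, hmin⟩ := D.exists_min_image (fun j => pos α ((j : ℤ) - k)) hne
    simp only [D, Finset.mem_filter, Finset.mem_range] at hJ
    refine ⟨pos α ((J : ℤ) - k), (Int.fract_nonneg _).lt_of_ne (Ne.symm hJ.2),
      (Int.fract_lt_one _).le, ⟨J, hJ.1, Int.fract_eq_fract.2 ⟨⌊(((J : ℤ) - k : ℤ) : ℝ) * α⌋, ?_⟩⟩,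
      fun j hj t ht htg he => ?_⟩
    · rw [pos, Int.fract]
      push_cast
      ring
    · obtain ⟨hj', hp⟩ := hD j hj t ht (htg.trans (Int.fract_lt_one _)) he
      have := hmin j hj'
      simp only [hp] at this
      linarith
  · exact ⟨1, one_pos, le_rfl, ⟨k, hk, (Int.fract_add_one _).symm⟩,
      fun j hj t ht ht1 he => hne ⟨j, (hD j hj t ht ht1 he).1⟩⟩

end FA.ThreeGaps

end
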